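import Fermat.Agent.RED.RamBound.Abstract
import Fermat.Agent.RED.PlaceValue
import Fermat.Agent.BAD.Gauss

/-!
# The place defined by an expansion in Laurent series
-/

set_option autoImplicit false

noncomputable section

open AlgebraicCurve Fermat.Agent.RED

namespace Fermat.Agent.LLp

variable {L F : Type*} [Field L] [Field F] [Algebra L F] (e : F →ₐ[L] LaurentSeries L) {x : F}
  (hx : (e x).order ≠ 0)

include hx in
theorem serPlace_nontriv :
    ∃ y : F, (RamBound.serVal L).comap e.toRingHom y ≠ 0 ∧
      (RamBound.serVal L).comap e.toRingHom y ≠ 1 := by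
  have hex : e x ≠ 0 := fun h => hx (by rw [h, HahnSeries.order_zero])
  refine ⟨x, ?_, fun h => hx ?_⟩
  · exact (RamBound.serVal L).ne_zero_iff.mpr hex
  · have h' : RamBound.serVal L (e x) = 1 := h
    rw [← RamBound.log_serVal, h', WithZero.log_one, neg_zero]

/-- The place of the expansion. -/
def serPlace : Place L F :=
  MF.PlaceOrbits.placeOfVal ((RamBound.serVal L).comap e.toRingHom) (fun a ha => by
    show RamBound.serVal L (e (algebraMap L F a)) = 1
    have hC : e (algebraMap L F a) = HahnSeries.C a := by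
      rw [AlgHom.commutes, BAD.Gauss.algebraMap_eq_C]
    obtain ⟨h1, h2⟩ := RamBound.order_ringHom_const (RingHom.id L) ha
    rw [RingHom.id_apply] at h1 h2
    rw [hC, RamBound.serVal_of_ne h1, h2, neg_zero, WithZero.exp_zero]) (serPlace_nontriv e hx)

variable {e hx}

theorem mem_serPlace {f : F} : f ∈ (serPlace e hx).toValuationSubring ↔ 0 ≤ (e f).order := by
  rw [serPlace, MF.PlaceOrbits.mem_placeOfVal]
  show RamBound.serVal L (e f) ≤ 1 ↔ _
  rcases eq_or_ne (e f) 0 with h | h
  · simp [h]
  · rw [RamBound.serVal_of_ne h, ← WithZero.exp_zero, WithZero.exp_le_exp]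
    omega

theorem series_order_inv {y : LaurentSeries L} (hy : y ≠ 0) : y⁻¹.order = -y.order := by
  have h := HahnSeries.order_mul hy (inv_ne_zero hy)
  rw [mul_inv_cancel₀ hy, HahnSeries.order_one] at h
  omega

theorem coeff_zero_eq {f : F} (h : 0 ≤ (e f).order) {g : F}
    (hg : g = f - algebraMap L F ((e f).coeff 0)) : g = 0 ∨ 0 < (e g).order := by
  refine (eq_or_ne g 0).imp_right fun hg0 => ?_
  have heg : e g ≠ 0 := (_root_.map_ne_zero _).mpr hg0
  have hcoeff : ∀ n : ℤ, n ≤ 0 → (e g).coeff n = 0 := fun n hn => by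
    rw [hg, map_sub, AlgHom.commutes, BAD.Gauss.algebraMap_eq_C, HahnSeries.C_apply,
      HahnSeries.coeff_sub]
    rcases lt_or_eq_of_le hn with hlt | rfl
    · rw [HahnSeries.coeff_eq_zero_of_lt_order (hlt.trans_le h),
        HahnSeries.coeff_single_of_ne hlt.ne, sub_zero]
    · rw [HahnSeries.coeff_single_same, sub_self]
  by_contra hle
  exact mt HahnSeries.coeff_order_eq_zero.mp heg (hcoeff _ (not_lt.mp hle))

theorem ord_serPlace_pos {f : F} (hf : f ≠ 0) (h : 0 < (e f).order) :
    0 < (serPlace e hx).ord f := by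
  by_contra hle
  have hm : f⁻¹ ∈ (serPlace e hx).toValuationSubring :=
    mem_of_ord_nonneg _ (by rw [Place.ord_inv]; omega)
  rw [mem_serPlace, map_inv₀, series_order_inv ((_root_.map_ne_zero _).mpr hf)] at hm
  omega

theorem order_eq_zero_of_ord {f : F} (hf : f ≠ 0) (h : (serPlace e hx).ord f = 0) :
    (e f).order = 0 := by
  have h1 := mem_serPlace.mp (mem_of_ord_nonneg (serPlace e hx) h.ge)
  have h2 := mem_serPlace.mp (mem_of_ord_nonneg (serPlace e hx) (f := f⁻¹)
    (by rw [Place.ord_inv]; omega))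
  rw [map_inv₀, series_order_inv ((_root_.map_ne_zero _).mpr hf)] at h2
  omega

theorem pval_serPlace (hd : (serPlace e hx).deg = 1) {f : F}
    (hf : f ∈ (serPlace e hx).toValuationSubring) :
    pval (serPlace e hx) f = (e f).coeff 0 := by
  have hc := (serPlace e hx).algebraMap_mem' ((e f).coeff 0)
  have hg := coeff_zero_eq (mem_serPlace.mp hf) rfl
  have h0 : pval (serPlace e hx) (f - algebraMap L F ((e f).coeff 0)) = 0 := by
    refine (pval_eq_zero_iff hd (sub_mem hf hc)).mpr ?_
    rcases hg with h | h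
    · exact Or.inl h
    · exact Or.inr (ord_serPlace_pos (fun h' => by rw [h', map_zero, HahnSeries.order_zero] at h; omega) h)
  rw [pval_sub hd hf hc, pval_algebraMap hd, sub_eq_zero] at h0
  exact h0

end Fermat.Agent.LLp
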