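import Fermat.Agent.BAD.Gauss
import Fermat.Agent.RED.CoordData
import Mathlib.RingTheory.PowerSeries.Inverse

/-!
# Integral series in the fraction field of integral series

Over a valuation ring of rank one, a series which is integral for the Gauss valuation and
integral over the power series with coefficients in the ring is itself such a power series.
-/

set_option autoImplicit false

noncomputable section

open ModularCurve Fermat.Agent.RED

namespace Fermat.Agent.LLp

open BAD.Gauss (IsFrac gaussRing)

variable {L k : Type*} [Field L] [Field k] (A : ValuationSubring L) {π : A →+* k}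

/-- The power series with coefficients in `A`, inside `L((q))`. -/
def psRing : Subring (LaurentSeries L) :=
  ((coeffMap A.subtype).comp (HahnSeries.ofPowerSeries ℤ A)).range

variable {A}

theorem coeffMap_ofPowerSeries_mem_psRing (s : PowerSeries A) :
    coeffMap A.subtype (HahnSeries.ofPowerSeries ℤ A s) ∈ psRing A := ⟨s, rfl⟩

theorem mem_psRing_iff {y : LaurentSeries L} :
    y ∈ psRing A ↔ (∀ n, y.coeff n ∈ A) ∧ ∀ n < 0, y.coeff n = 0 := by
  constructor
  · rintro ⟨s, rfl⟩
    refine ⟨fun n => ?_, fun n hn => ?_⟩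
    · rw [RingHom.comp_apply, coeffMap_coeff]
      exact SetLike.coe_mem _
    · rw [RingHom.comp_apply, coeffMap_coeff, PowerSeries.coeff_coe, if_pos hn]
      exact map_zero _
  · rintro ⟨hA, h0⟩
    refine ⟨PowerSeries.mk fun n => ⟨y.coeff n, hA n⟩, ?_⟩
    ext n
    rw [RingHom.comp_apply, coeffMap_coeff, PowerSeries.coeff_coe]
    rcases lt_or_ge n 0 with hn | hn
    · rw [if_pos hn, h0 n hn]
      exact map_zero _
    · obtain ⟨m, rfl⟩ := Int.eq_ofNat_of_zero_le hn
      rw [if_neg (by omega), Int.natAbs_natCast, PowerSeries.coeff_mk]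
      rfl

theorem C_mem_psRing {c : L} (hc : c ∈ A) : (HahnSeries.C c : LaurentSeries L) ∈ psRing A :=
  ⟨PowerSeries.C (⟨c, hc⟩ : A), by
    rw [RingHom.comp_apply, HahnSeries.ofPowerSeries_C]
    exact coeffMap_single _ _ _⟩

theorem single_mem_psRing {c : L} (hc : c ∈ A) {n : ℤ} (hn : 0 ≤ n) :
    (HahnSeries.single n c : LaurentSeries L) ∈ psRing A := by
  refine mem_psRing_iff.mpr ⟨fun m => ?_, fun m hm => ?_⟩
  · rcases eq_or_ne m n with rfl | h
    · rwa [HahnSeries.coeff_single_same]
    · rw [HahnSeries.coeff_single_of_ne h]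
      exact zero_mem A
  · exact HahnSeries.coeff_single_of_ne (by omega)

omit [Field k] in
theorem coeff_order_ne {z : LaurentSeries L} (hz : z ≠ 0) : z.coeff z.order ≠ 0 :=
  mt HahnSeries.coeff_order_eq_zero.mp hz

variable (arch : ∀ x ∈ A.nonunits, ∀ c : L, c ≠ 0 → ∃ N : ℕ, x ^ N / c ∈ A)
include arch

omit [Field k] in
/-- Almost integral series are integral. -/
theorem mem_psRing_of_almostIntegral {y b : LaurentSeries L} (hb : b ∈ psRing A) (hb0 : b ≠ 0)
    (h : ∀ n : ℕ, b * y ^ n ∈ psRing A) : y ∈ psRing A := by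
  have hord : ∀ {z : LaurentSeries L}, z ∈ psRing A → z ≠ 0 → 0 ≤ z.order := fun {z} hz hz0 => by
    by_contra hlt
    exact coeff_order_ne hz0 ((mem_psRing_iff.mp hz).2 _ (not_le.mp hlt))
  set l := b.order
  set c := b.coeff l with hc
  have hcA : c ∈ A := (mem_psRing_iff.mp hb).1 l
  have hc0 : c ≠ 0 := coeff_order_ne hb0
  -- the first nonzero coefficient of an almost integral series is integral and of order ≥ 0
  have first : ∀ z : LaurentSeries L, z ≠ 0 → (∀ n : ℕ, b * z ^ n ∈ psRing A) →
      0 ≤ z.order ∧ z.coeff z.order ∈ A := by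
    intro z hz hn
    have ho : ∀ n : ℕ, (b * z ^ n).order = l + n * z.order := fun n => by
      rw [HahnSeries.order_mul hb0 (pow_ne_zero _ hz), HahnSeries.order_pow, nsmul_eq_mul]
    refine ⟨?_, ?_⟩
    · by_contra hlt
      have := hord (hn (l.toNat + 1)) (mul_ne_zero hb0 (pow_ne_zero _ hz))
      rw [ho] at this
      push_cast at this
      nlinarith [Int.self_le_toNat l]
    · by_contra hzA
      have hinv : (z.coeff z.order)⁻¹ ∈ A.nonunits := by
        rw [A.mem_nonunits_iff, map_inv₀]
        exact inv_lt_one_of_one_lt₀ (not_le.mp fun h => hzA ((A.valuation_le_one_iff _).mp h))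
      obtain ⟨N, hN⟩ := arch _ hinv c hc0
      have hlead : c * z.coeff z.order ^ (N + 1) ∈ A := by
        have h1 : (b * z ^ (N + 1)).leadingCoeff ∈ A := by
          rw [HahnSeries.leadingCoeff_eq]
          exact (mem_psRing_iff.mp (hn (N + 1))).1 _
        rwa [HahnSeries.leadingCoeff_mul,
          show (z ^ (N + 1)).leadingCoeff = z.leadingCoeff ^ (N + 1) from by
            induction N + 1 with
            | zero => rw [pow_zero, pow_zero, HahnSeries.leadingCoeff_one]
            | succ n ih => rw [pow_succ, pow_succ, HahnSeries.leadingCoeff_mul, ih],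
          HahnSeries.leadingCoeff_eq, HahnSeries.leadingCoeff_eq] at h1
      have hz0 : z.coeff z.order ≠ 0 := coeff_order_ne hz
      have hmem := mul_mem hlead hN
      rw [show c * z.coeff z.order ^ (N + 1) * ((z.coeff z.order)⁻¹ ^ N / c) = z.coeff z.order by
        rw [pow_succ, inv_pow]; field_simp] at hmem
      exact hzA hmem
  have hneg : ∀ n < 0, y.coeff n = 0 := fun n hn => by
    rcases eq_or_ne y 0 with rfl | hy0
    · simp
    exact HahnSeries.coeff_eq_zero_of_lt_order (hn.trans_le (first y hy0 h).1)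
  suffices hA : ∀ m : ℕ, y.coeff (m : ℤ) ∈ A by
    refine mem_psRing_iff.mpr ⟨fun n => ?_, hneg⟩
    rcases lt_or_ge n 0 with hn | hn
    · rw [hneg n hn]; exact zero_mem A
    · obtain ⟨m, rfl⟩ := Int.eq_ofNat_of_zero_le hn
      exact hA m
  intro m
  induction m using Nat.strong_induction_on with
  | _ m ih =>
    set s : LaurentSeries L := ∑ j ∈ Finset.range m, HahnSeries.single (j : ℤ) (y.coeff j) with hs
    have hsmem : s ∈ psRing A :=
      sum_mem fun j hj => single_mem_psRing (ih j (Finset.mem_range.mp hj)) (Int.natCast_nonneg j)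
    set z := y - s with hz
    have hzn : ∀ n : ℕ, b * z ^ n ∈ psRing A := fun n => by
      rw [hz, sub_eq_add_neg, add_pow, Finset.mul_sum]
      refine sum_mem fun j _ => ?_
      rw [show b * (y ^ j * (-s) ^ (n - j) * (n.choose j : LaurentSeries L)) =
        b * y ^ j * ((-s) ^ (n - j) * (n.choose j : LaurentSeries L)) by ring]
      exact mul_mem (h j) (mul_mem (pow_mem (neg_mem hsmem) _) (natCast_mem _ _))
    have hcoeff : ∀ n : ℤ, z.coeff n =
        if 0 ≤ n ∧ n < (m : ℤ) then 0 else y.coeff n := fun n => by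
      rw [hz, hs, HahnSeries.coeff_sub, HahnSeries.coeff_sum]
      split_ifs with hn
      · obtain ⟨i, rfl⟩ := Int.eq_ofNat_of_zero_le hn.1
        rw [Finset.sum_eq_single i (fun j _ hj => HahnSeries.coeff_single_of_ne (by omega))
          (fun hi => absurd (Finset.mem_range.mpr (by omega)) hi), HahnSeries.coeff_single_same,
          sub_self]
      · rw [Finset.sum_eq_zero fun j hj => HahnSeries.coeff_single_of_ne (by
          have := Finset.mem_range.mp hj
          omega), sub_zero]
    rcases eq_or_ne (y.coeff (m : ℤ)) 0 with h0 | h0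
    · rw [h0]; exact zero_mem A
    have hzm : z.coeff (m : ℤ) = y.coeff (m : ℤ) := by rw [hcoeff, if_neg (by omega)]
    have hz0 : z ≠ 0 := fun h' => h0 (by rw [← hzm, h', HahnSeries.coeff_zero])
    have hzo : z.order = m := by
      refine le_antisymm (HahnSeries.order_le_of_coeff_ne_zero (by rwa [hzm]))
        (not_lt.mp fun hlt => coeff_order_ne hz0 ?_)
      rw [hcoeff]
      split_ifs with h1
      · rfl
      · exact hneg _ (by omega)
    have := (first z hz0 hzn).2
    rwa [hzo, hzm] at this

omit [Field k] in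
/-- Series integral over integral series, in their fraction field, are integral. -/
theorem mem_psRing_of_isIntegral {y b : LaurentSeries L} (hb : b ∈ psRing A) (hb0 : b ≠ 0)
    (hby : b * y ∈ psRing A) {R : Type*} [CommRing R] {g : R →+* LaurentSeries L}
    (hg : ∀ r, g r ∈ psRing A) (hint : g.IsIntegralElem y) : y ∈ psRing A := by
  obtain ⟨P, hP, hPy⟩ := hint
  set d := P.natDegree with hd
  refine mem_psRing_of_almostIntegral arch (pow_mem hb d) (pow_ne_zero d hb0) fun n => ?_
  induction n using Nat.strong_induction_on with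
  | _ n ih =>
    rcases le_or_gt n d with hn | hn
    · rw [show b ^ d * y ^ n = b ^ (d - n) * (b * y) ^ n by
        rw [mul_pow, ← mul_assoc, ← pow_add, Nat.sub_add_cancel hn]]
      exact mul_mem (pow_mem hb _) (pow_mem hby _)
    · have hsum : y ^ d = -∑ j ∈ Finset.range d, g (P.coeff j) * y ^ j := by
        rw [Polynomial.eval₂_eq_sum_range, ← hd, Finset.sum_range_succ, hd,
          hP.coeff_natDegree, map_one, one_mul] at hPy
        exact eq_neg_of_add_eq_zero_right hPy
      have hyn : b ^ d * y ^ n = -∑ j ∈ Finset.range d, g (P.coeff j) *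
          (b ^ d * y ^ (n - d + j)) := by
        calc b ^ d * y ^ n = b ^ d * y ^ (n - d) * y ^ d := by
              rw [mul_assoc, ← pow_add, Nat.sub_add_cancel hn.le]
          _ = _ := by
              rw [hsum, mul_neg, Finset.mul_sum]
              refine congrArg _ (Finset.sum_congr rfl fun j _ => ?_)
              rw [pow_add]
              ring
      rw [hyn]
      exact neg_mem (sum_mem fun j hj => mul_mem (hg _)
        (ih _ (by have := Finset.mem_range.mp hj; omega)))

/-- A series in the Gauss ring with bounded coefficients is integral. -/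
theorem coeff_mem_of_gaussRing (hπ : ∀ a : A, (a : L) ∈ A.nonunits ↔ π a = 0)
    {y : LaurentSeries L} (hy : y ∈ gaussRing π) {d : L} (hd0 : d ≠ 0)
    (hd : ∀ n, d * y.coeff n ∈ A) (n : ℤ) : y.coeff n ∈ A := by
  classical
  obtain ⟨a, b, hb, he⟩ := hy
  -- the first coefficient of `b` which is a unit
  have hex : ∃ i : ℕ, π (b.coeff (b.order + i)) ≠ 0 := by
    by_contra hno
    push Not at hno
    refine hb (HahnSeries.ext (funext fun j => ?_))
    rw [coeffMap_coeff, HahnSeries.coeff_zero]
    rcases lt_or_ge j b.order with hj | hj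
    · rw [HahnSeries.coeff_eq_zero_of_lt_order hj, map_zero]
    · obtain ⟨i, hi⟩ := Int.eq_ofNat_of_zero_le (sub_nonneg.mpr hj)
      rw [show j = b.order + i by omega]
      exact hno i
  set j₀ : ℤ := b.order + (Nat.find hex : ℕ) with hj₀
  have hlow : ∀ j < j₀, ((b.coeff j : A) : L) ∈ A.nonunits := fun j hj => by
    rw [hπ]
    rcases lt_or_ge j b.order with hj' | hj'
    · rw [HahnSeries.coeff_eq_zero_of_lt_order hj', map_zero]
    · obtain ⟨i, hi⟩ := Int.eq_ofNat_of_zero_le (sub_nonneg.mpr hj')
      rw [show j = b.order + i by omega]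
      exact not_not.mp (Nat.find_min hex (by omega))
  -- split off the finitely many small coefficients
  set T := Finset.Ico b.order j₀
  set bs : LaurentSeries L :=
    ∑ j ∈ T, HahnSeries.single j ((b.coeff j : A) : L) with hbs
  set bu := coeffMap A.subtype b - bs with hbu
  have hbuc : ∀ j, bu.coeff j = if j < j₀ then 0 else ((b.coeff j : A) : L) := fun j => by
    rw [hbu, hbs, HahnSeries.coeff_sub, HahnSeries.coeff_sum, coeffMap_coeff]
    by_cases hjT : j ∈ T
    · rw [Finset.sum_eq_single j (fun i _ hi => HahnSeries.coeff_single_of_ne hi.symm)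
        (fun h => absurd hjT h), HahnSeries.coeff_single_same,
        if_pos (Finset.mem_Ico.mp hjT).2]
      exact sub_self _
    · rw [Finset.sum_eq_zero fun i hi => HahnSeries.coeff_single_of_ne
        (fun h : j = i => hjT (h ▸ hi)), sub_zero]
      split_ifs with h1
      · rw [HahnSeries.coeff_eq_zero_of_lt_order
          (not_le.mp fun h2 => hjT (Finset.mem_Ico.mpr ⟨h2, h1⟩)), map_zero]
      · rfl
  have hu : IsUnit (b.coeff j₀) := by
    by_contra h
    exact Nat.find_spec hex ((hπ _).mp (A.coe_mem_nonunits_iff.mpr h))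
  -- the rest is a monomial times an invertible power series
  obtain ⟨v, hvu, hv⟩ : ∃ v : PowerSeries A, IsUnit v ∧
      bu = HahnSeries.single j₀ 1 * coeffMap A.subtype (HahnSeries.ofPowerSeries ℤ A v) := by
    refine ⟨PowerSeries.mk fun i => b.coeff (j₀ + i), ?_, ?_⟩
    · rw [PowerSeries.isUnit_iff_constantCoeff, ← PowerSeries.coeff_zero_eq_constantCoeff_apply,
        PowerSeries.coeff_mk, Nat.cast_zero, add_zero]
      exact hu
    · ext j
      rw [hbuc, HahnSeries.coeff_single_mul, one_mul, coeffMap_coeff, PowerSeries.coeff_coe]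
      rcases lt_or_ge j j₀ with hj | hj
      · rw [if_pos hj, if_pos (by omega), map_zero]
      · rw [if_neg (not_lt.mpr hj), if_neg (by omega), PowerSeries.coeff_mk,
          show j₀ + ((j - j₀).natAbs : ℤ) = j by omega]
        rfl
  -- integrality on constants multiples
  have key : ∀ c' : L, (∀ j ∈ T, ∀ i, c' * ((b.coeff j : A) : L) * y.coeff i ∈ A) → c' ∈ A →
      ∀ i, c' * y.coeff i ∈ A := by
    intro c' hsmall hc' i
    obtain ⟨w, hw⟩ := hvu.exists_left_inv
    set z : LaurentSeries L := HahnSeries.C c' * coeffMap A.subtype a -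
      ∑ j ∈ T, HahnSeries.single j (c' * ((b.coeff j : A) : L)) * y with hz
    have hzA : ∀ t, z.coeff t ∈ A := fun t => by
      rw [hz, HahnSeries.coeff_sub, HahnSeries.coeff_sum, HahnSeries.C_mul_eq_smul,
        HahnSeries.coeff_smul, smul_eq_mul, coeffMap_coeff]
      refine sub_mem (mul_mem hc' (SetLike.coe_mem _)) (sum_mem fun j hj => ?_)
      rw [HahnSeries.coeff_single_mul]
      exact hsmall j hj _
    have hy : HahnSeries.C c' * y =
        coeffMap A.subtype (HahnSeries.ofPowerSeries ℤ A w) * HahnSeries.single (-j₀) 1 * z := by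
      have hid : coeffMap A.subtype (HahnSeries.ofPowerSeries ℤ A w) *
          (HahnSeries.single (-j₀) 1 * bu) = 1 := by
        rw [hv, ← mul_assoc (HahnSeries.single (-j₀) (1 : L)), HahnSeries.single_mul_single,
          one_mul, neg_add_cancel, HahnSeries.single_zero_one, one_mul, ← map_mul, ← map_mul,
          hw, map_one, map_one]
      have hz' : z = bu * (HahnSeries.C c' * y) := by
        rw [hz, ← he, hbu, hbs, sub_mul, Finset.sum_mul, mul_left_comm]
        refine congrArg₂ _ rfl (Finset.sum_congr rfl fun j _ => ?_)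
        rw [← mul_assoc, HahnSeries.C_apply, HahnSeries.single_mul_single, add_zero, mul_comm c']
      rw [hz', mul_assoc, ← mul_assoc (HahnSeries.single (-j₀) (1 : L)), ← mul_assoc, hid,
        one_mul]
    have hci : c' * y.coeff i = (HahnSeries.C c' * y).coeff i := by
      rw [HahnSeries.C_mul_eq_smul, HahnSeries.coeff_smul, smul_eq_mul]
    rw [hci, hy, mul_assoc, HahnSeries.coeff_mul]
    refine sum_mem fun t _ => mul_mem ?_ ?_
    · rw [coeffMap_coeff]; exact SetLike.coe_mem _
    · rw [HahnSeries.coeff_single_mul, one_mul]; exact hzA _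
  rcases (T.image fun j => ((b.coeff j : A) : L)).eq_empty_or_nonempty with hT | hT
  · rw [Finset.image_eq_empty] at hT
    simpa using key 1 (by simp [hT]) (one_mem A) n
  obtain ⟨ε, hεT, hεmax⟩ := Finset.exists_max_image _ A.valuation hT
  obtain ⟨jε, hjε, hjε'⟩ := Finset.mem_image.mp hεT
  have hεn : ε ∈ A.nonunits := hjε' ▸ hlow jε (Finset.mem_Ico.mp hjε).2
  rcases eq_or_ne ε 0 with hε0 | hε0
  · refine (one_mul (y.coeff n)) ▸ key 1 (fun j hj i => ?_) (one_mem A) n
    have h1 := hεmax _ (Finset.mem_image_of_mem _ hj)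
    rw [hε0, map_zero, le_zero_iff, map_eq_zero] at h1
    rw [h1, mul_zero, zero_mul]
    exact zero_mem A
  -- descend from the bound `d`
  suffices H : ∀ (N : ℕ) (c : L), c ≠ 0 → (∀ i, c * y.coeff i ∈ A) → ε ^ N / c ∈ A →
      ∀ i, y.coeff i ∈ A by
    obtain ⟨N, hN⟩ := arch ε hεn d hd0
    exact H N d hd0 hd hN n
  intro N
  induction N with
  | zero =>
    intro c hc0 hc hN i
    have h1 := mul_mem hN (hc i)
    rwa [pow_zero, one_div, inv_mul_cancel_left₀ hc0] at h1
  | succ N ih =>
    intro c hc0 hc hN
    have step : ∀ c' : L, c' ∈ A → c' * ε / c ∈ A → ∀ i, c' * y.coeff i ∈ A := by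
      intro c' hc' hce
      refine key c' (fun j hj i => ?_) hc'
      have h1 : ((b.coeff j : A) : L) / ε ∈ A := by
        rw [← A.valuation_le_one_iff, map_div₀,
          div_le_one₀ ((Valuation.pos_iff _).mpr hε0)]
        exact hεmax _ (Finset.mem_image_of_mem _ hj)
      have := mul_mem (mul_mem hce h1) (hc i)
      rwa [show c' * ε / c * (((b.coeff j : A) : L) / ε) * (c * y.coeff i) =
        c' * ((b.coeff j : A) : L) * y.coeff i by field_simp] at this
    by_cases hcε : c / ε ∈ A
    · refine ih (c / ε) (div_ne_zero hc0 hε0) (step _ hcε ?_) ?_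
      · rw [div_mul_cancel₀ _ hε0, div_self hc0]; exact one_mem A
      · rwa [div_div_eq_mul_div, ← pow_succ]
    · intro i
      have h1 : ε / c ∈ A := by
        have := (A.mem_or_inv_mem (c / ε)).resolve_left hcε
        rwa [inv_div] at this
      simpa using step 1 (one_mem A) (by rwa [one_mul]) i

/-- A function integral over `L[x]` and for the Gauss valuation has an integral expansion. -/
theorem expansion_mem_psRing (hπ : ∀ a : A, (a : L) ∈ A.nonunits ↔ π a = 0)
    {F : Type*} [Field F] [Algebra L F] (e : F →ₐ[L] LaurentSeries L) {x a : F}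
    (hx : e x ∈ psRing A) (ha : a ∈ coordRing L x) (hg : e a ∈ gaussRing π) :
    e a ∈ psRing A := by
  classical
  obtain ⟨P, hP, hPa⟩ := ha
  set cs : Finset L :=
    (Finset.range P.natDegree).biUnion fun i => (P.coeff i).support.image fun t => (P.coeff i).coeff t
    with hcs
  obtain ⟨d, hd0, hdA, hdc⟩ : ∃ d : L, d ≠ 0 ∧ d ∈ A ∧ ∀ c ∈ cs, d * c ∈ A := by
    refine ⟨∏ c ∈ cs, if c ∈ A then 1 else c⁻¹, ?_, prod_mem fun c _ => ?_, fun c hc => ?_⟩
    · refine Finset.prod_ne_zero_iff.mpr fun c _ => ?_
      split_ifs with h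
      · exact one_ne_zero
      · exact inv_ne_zero fun h0 : c = 0 => h (by rw [h0]; exact zero_mem A)
    · split_ifs with h
      · exact one_mem A
      · exact (A.mem_or_inv_mem c).resolve_left h
    · rw [← Finset.mul_prod_erase cs _ hc, mul_right_comm]
      refine mul_mem ?_ (prod_mem fun c' _ => ?_)
      · split_ifs with h
        · rwa [one_mul]
        · rw [inv_mul_cancel₀ fun h0 : c = 0 => h (by rw [h0]; exact zero_mem A)]; exact one_mem A
      · split_ifs with h
        · exact one_mem A
        · exact (A.mem_or_inv_mem c').resolve_left h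
  have hcoef : ∀ i < P.natDegree, ∀ t, d * (P.coeff i).coeff t ∈ A := fun i hi t => by
    rcases eq_or_ne ((P.coeff i).coeff t) 0 with h0 | h0
    · rw [h0, mul_zero]; exact zero_mem A
    · exact hdc _ (Finset.mem_biUnion.mpr ⟨i, Finset.mem_range.mpr hi,
        Finset.mem_image.mpr ⟨t, Polynomial.mem_support_iff.mpr h0, rfl⟩⟩)
  -- the monic polynomial of `d a` with coefficients in the integral series
  set Q := (P.scaleRoots (Polynomial.C d)).map (e.toRingHom.comp (coordEval L x)) with hQ
  have hQmonic : Q.Monic := ((Polynomial.monic_scaleRoots_iff _).mpr hP).map _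
  have hQc : ∀ i, Q.coeff i ∈ psRing A := fun i => by
    rw [hQ, Polynomial.coeff_map, Polynomial.coeff_scaleRoots, ← map_pow]
    rcases lt_trichotomy i P.natDegree with hi | hi | hi
    · obtain ⟨m, hm⟩ : ∃ m, P.natDegree - i = m + 1 := ⟨P.natDegree - i - 1, by omega⟩
      rw [hm, pow_succ', map_mul Polynomial.C, ← mul_assoc,
        show P.coeff i * Polynomial.C d = Polynomial.C d * P.coeff i from mul_comm _ _, map_mul]
      refine mul_mem ?_ ?_
      · rw [RingHom.comp_apply]
        show e (coordEval L x (Polynomial.C d * P.coeff i)) ∈ psRing A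
        rw [show coordEval L x (Polynomial.C d * P.coeff i) =
          Polynomial.aeval x (Polynomial.C d * P.coeff i) from rfl, ← Polynomial.aeval_algHom_apply,
          Polynomial.aeval_eq_sum_range]
        refine sum_mem fun t _ => ?_
        rw [Polynomial.coeff_C_mul, Algebra.smul_def, BAD.Gauss.algebraMap_eq_C]
        exact mul_mem (C_mem_psRing (hcoef i hi t)) (pow_mem hx t)
      · show e (coordEval L x (Polynomial.C (d ^ m))) ∈ psRing A
        rw [show coordEval L x (Polynomial.C (d ^ m)) = algebraMap L F (d ^ m) from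
          Polynomial.aeval_C x _, AlgHom.commutes, BAD.Gauss.algebraMap_eq_C]
        exact C_mem_psRing (pow_mem hdA m)
    · rw [hi, hP.coeff_natDegree, Nat.sub_self, pow_zero, map_one, one_mul, map_one]
      exact one_mem _
    · rw [Polynomial.coeff_eq_zero_of_natDegree_lt hi, zero_mul, map_zero]
      exact zero_mem _
  have hroot : Q.eval₂ (RingHom.id _) (HahnSeries.C d * e a) = 0 := by
    rw [hQ, Polynomial.eval₂_map, RingHom.id_comp,
      show HahnSeries.C d * e a = e.toRingHom (coordEval L x (Polynomial.C d) * a) by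
        rw [show coordEval L x (Polynomial.C d) = algebraMap L F d from Polynomial.aeval_C x _]
        show _ = e (_ * a)
        rw [map_mul, AlgHom.commutes, BAD.Gauss.algebraMap_eq_C],
      ← Polynomial.hom_eval₂, Polynomial.scaleRoots_eval₂_eq_zero _ hPa, map_zero]
  -- a denominator which is an integral power series
  obtain ⟨a', b', hb', he'⟩ := hg
  set s : LaurentSeries L := HahnSeries.single (max 0 (max (-a'.order) (-b'.order))) 1
  have hshift : ∀ z : LaurentSeries A, -z.order ≤ max 0 (max (-a'.order) (-b'.order)) →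
      s * coeffMap A.subtype z ∈ psRing A := fun z hz => by
    refine mem_psRing_iff.mpr ⟨fun i => ?_, fun i hi => ?_⟩ <;>
      rw [HahnSeries.coeff_single_mul, one_mul, coeffMap_coeff]
    · exact SetLike.coe_mem _
    · rw [HahnSeries.coeff_eq_zero_of_lt_order (by omega)]
      exact map_zero _
  have hbmem := hshift b' (le_max_of_le_right (le_max_right _ _))
  have hb0 : s * coeffMap A.subtype b' ≠ 0 := mul_ne_zero
    (HahnSeries.single_ne_zero one_ne_zero) (BAD.Gauss.coeffMap_subtype_ne_zero hb')
  have hmul : s * coeffMap A.subtype b' * (HahnSeries.C d * e a) ∈ psRing A := by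
    rw [mul_left_comm, mul_assoc, he']
    exact mul_mem (C_mem_psRing hdA) (hshift a' (le_max_of_le_right (le_max_left _ _)))
  have hda : HahnSeries.C d * e a ∈ psRing A := by
    obtain ⟨Q', hQ'map, -, hQ'monic⟩ := Polynomial.lifts_and_degree_eq_and_monic
      (f := (psRing A).subtype)
      ((Polynomial.lifts_iff_coeff_lifts Q).mpr fun i => ⟨⟨_, hQc i⟩, rfl⟩) hQmonic
    refine mem_psRing_of_isIntegral arch hbmem hb0 hmul (g := (psRing A).subtype)
      (fun r => r.2) ⟨Q', hQ'monic, ?_⟩
    rw [show (psRing A).subtype = (RingHom.id _).comp (psRing A).subtype from rfl,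
      ← Polynomial.eval₂_map, hQ'map, hroot]
  obtain ⟨hdaA, hdaneg⟩ := mem_psRing_iff.mp hda
  have hcoe : ∀ i, (HahnSeries.C d * e a).coeff i = d * (e a).coeff i := fun i => by
    rw [HahnSeries.C_mul_eq_smul, HahnSeries.coeff_smul, smul_eq_mul]
  refine mem_psRing_iff.mpr
    ⟨coeff_mem_of_gaussRing arch hπ ⟨a', b', hb', he'⟩ hd0 fun i => hcoe i ▸ hdaA i,
      fun i hi => ?_⟩
  have h1 := hdaneg i hi
  rw [hcoe] at h1
  exact (mul_eq_zero.mp h1).resolve_left hd0

end Fermat.Agent.LLp
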