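import Fermat.Agent.LLp.Inst.CuspSep
import Fermat.Agent.LLp.Inst.SerPlace
import Fermat.Agent.LLp.Inst.SeriesNormal
import Fermat.Agent.LLp.DescentLead
import Fermat.Agent.LLp.Local.ResidualDefs
import Fermat.Agent.LLp.Local.SpecBase
import Fermat.Agent.BAD.Modular.Curve

/-!
# The two cusps of `X₀(M p)` for the residual theorem

`lead i f` is the leading coefficient of the `i`-th expansion.
-/

set_option autoImplicit false
set_option linter.style.haveILetI false
set_option linter.unusedSectionVars false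
set_option synthInstance.maxHeartbeats 200000

noncomputable section

open AlgebraicCurve ModularCurve IsLocalRing Fermat.Agent.RED Fermat.Agent.HK.Corr
open Fermat.Agent.Galois (GalQ)
open Fermat.Agent.Igusa (jInvSeries jqModC_mul_inv coeffMap_jInvSeries)
open Fermat.Agent.BAD.Modular (Qb)

namespace Fermat.Agent.LLp

section Generic

variable {L k : Type*} [Field L] [Field k] {A : ValuationSubring L} {π : A →+* k}
  {F C : Type*} [Field F] [Algebra L F] [Field C] [Algebra k C]

/-- A function with value `1` at the zeros of the coordinate on the first branch and `0` at those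
on the second one shows that these are no crossings. -/
theorem isSmoothPt_of_separator {D : BAD.BadBase π F C} {u : F} {ubar : C} {d : ℕ}
    (h : BAD.Chart D u ubar d) {a : F} (ha : a ∈ coordRing L u) (haO : a ∈ D.O)
    (h0 : ∀ x : Place k C, 0 < x.ord ubar → BAD.pv x (h.coord.deg_one x) (D.red 0 a) = 1)
    (h1 : ∀ x : Place k C, 0 < x.ord ubar → BAD.pv x (h.coord.deg_one x) (D.red 1 a) = 0)
    (z : Fin 2 × Place k C) (hz : 0 < z.2.ord ubar) : IsSmoothPt h z := by
  refine ⟨mem_of_ord_nonneg _ hz.le, fun w hw hr => ?_⟩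
  have hwi : 0 < w.2.ord ubar := by
    have h2 : BAD.pv z.2 (h.coord.deg_one z.2) ubar = BAD.pv w.2 (h.coord.deg_one w.2) ubar :=
      hr _ h.const_ubar_mem
    rw [(BAD.pv_eq_zero_iff (mem_of_ord_nonneg _ hz.le)).mpr (Or.inr hz)] at h2
    refine ((BAD.pv_eq_zero_iff hw).mp h2.symm).resolve_left fun e => ?_
    rw [e, Place.ord_zero] at hz
    exact lt_irrefl _ hz
  have hev := hr _ (BAD.Chart.mem_chartAlg.mpr ⟨a, ha, haO, rfl⟩)
  obtain ⟨i, x⟩ := z
  obtain ⟨j, y⟩ := w
  fin_cases i <;> fin_cases j <;>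
    simp only [BAD.Chart.ev, BAD.TwoBranch.red2_apply, Fin.zero_eta, Fin.mk_one, h0 _ hz, h0 _ hwi,
      h1 _ hz, h1 _ hwi] at hev
  · exact Prod.ext rfl (h.eq_of_rel_same hw (mem_of_ord_nonneg _ hz.le) hr.symm)
  · exact absurd hev one_ne_zero
  · exact absurd hev.symm one_ne_zero
  · exact Prod.ext rfl (h.eq_of_rel_same hw (mem_of_ord_nonneg _ hz.le) hr.symm)

/-- The cusps given by two expansions which have, on the chart at infinity, integral power series
reducing to the expansions on the special fibre. -/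
theorem exists_cusps_of_expansions [IsAlgClosed L] [FF.IsFunctionField L F] {C : IntermediateField k (LaurentSeries k)}
    {D : BAD.BadCurve π F C} (R : RatField D.toBadBase) (e : Fin 2 → F →ₐ[L] LaurentSeries L)
    (hu : ∀ i, 0 < (e i D.u⁻¹).order) (huA : ∀ i, (e i D.u⁻¹).coeff 0 ∈ A)
    (hub : (D.ubar : LaurentSeries k).order < 0)
    (hser : ∀ a ∈ coordRing L D.u⁻¹, a ∈ D.O → ∀ i, ∃ s : LaurentSeries A,
      e i a = coeffMap A.subtype s ∧ ((D.red i a : C) : LaurentSeries k) = coeffMap π s)
    (hsmooth : ∀ z : Fin 2 × Place k C, z.2.ord D.ubar < 0 → IsSmoothPt D.chartInf z)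
    (hgal : ∀ τ ∈ R.gal, ∀ i f,
      (e i (τ • f)).leadingCoeff = SemilinearAut.baseAut τ (e i f).leadingCoeff) :
    ∃ K : Cusps D R, ∀ i f, K.lead i f = (e i f).leadingCoeff := by
  have hu' : ∀ i, (e i D.u⁻¹).order ≠ 0 := fun i => (hu i).ne'
  have hd : ∀ i, (serPlace (e i) (hu' i)).deg = 1 := fun i =>
    (coordData_chart D.chartInf).deg_one _
  have hub' : (C.val D.ubar).order ≠ 0 := hub.ne
  set x := serPlace C.val hub' with hxdef
  have hdx : x.deg = 1 := D.chartInf.coord.deg_one x
  have hxu : x.ord D.ubar < 0 := by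
    by_contra hle
    have h := (mem_serPlace (hx := hub')).mp (mem_of_ord_nonneg x (not_lt.mp hle))
    exact absurd h (not_le.mpr hub)
  have hxi : D.ubar⁻¹ ∈ x.toValuationSubring :=
    mem_of_ord_nonneg x (by rw [Place.ord_inv]; omega)
  refine ⟨
    { P := fun i => serPlace (e i) (hu' i)
      x := fun _ => x
      spec := fun i => ?_
      smooth := fun i => hsmooth (i, x) hxu
      lead := fun i f => (e i f).leadingCoeff
      lead_ne := fun i f hf =>
        HahnSeries.leadingCoeff_ne_zero.mpr ((_root_.map_ne_zero _).mpr hf)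
      lead_mul := fun i f g _ _ => by rw [map_mul, HahnSeries.leadingCoeff_mul]
      lead_eq := fun i f hf h0 => ?_
      lead_smul := fun i τ hτ f _ => hgal τ hτ i f }, fun i f => rfl⟩
  · have hm : D.u⁻¹ ∈ (serPlace (e i) (hu' i)).toValuationSubring :=
      mem_serPlace.mpr (hu i).le
    refine ⟨⟨hm, ?_⟩, hxi, fun a ha haO c hc => ?_⟩
    · rw [pval_serPlace (hd i) hm]
      exact huA i
    obtain ⟨s, hs, hred⟩ := hser a ha haO i
    have hma := mem_place_of_mem_coordRing _ _ _ hm ha
    rw [pval_serPlace (hd i) hma, hs, coeffMap_coeff] at hc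
    have hmc : D.red i a ∈ x.toValuationSubring :=
      D.chartInf.chartAlg_mem_place (BAD.Chart.mem_chartAlg.mpr ⟨a, ha, haO, rfl⟩) i hxi
    show BAD.pv x _ (D.red i a) = _
    rw [BAD.pv_of_mem hmc, ← pval_eq hdx hmc, pval_serPlace hdx hmc]
    show ((D.red i a : C) : LaurentSeries k).coeff 0 = _
    rw [hred, coeffMap_coeff, Subtype.ext hc]
  · have ho := order_eq_zero_of_ord (e := e i) (hx := hu' i) hf h0
    rw [pval_serPlace (hd i) (mem_serPlace.mpr ho.ge), HahnSeries.leadingCoeff_eq, ho]

end Generic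

variable {M p : ℕ} [NeZero M] [NeZero p] (hp : p.Prime) (hpM : ¬ p ∣ M)
  {A : ValuationSubring Qb} (hA : A.LiesOverPrime p)

/-- Points where the coordinate has a pole are no crossings. -/
theorem isSmoothPt_curve_cusp
    (z : Fin 2 × Place (ResidueField A) (modularFunctionFieldFullC (ResidueField A) M))
    (hz : z.2.ord (BAD.Modular.curve hp hpM hA).ubar < 0) :
    IsSmoothPt (BAD.Modular.curve hp hpM hA).chartInf z := by
  obtain ⟨haO, hr0, hr1⟩ := CuspSep.red_sepFn hp hpM hA
  refine isSmoothPt_of_separator (BAD.Modular.curve hp hpM hA).chartInf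
    (CuspSep.sepFn_mem_coordRing hp hpM hA) haO (fun v hv => ?_) (fun v hv => ?_) z
    (by rw [Place.ord_inv]; omega)
  · rw [hr0]
    exact BAD.pv_one
  · rw [hr1]
    refine CuspSep.pv_tbar_pow_eq_zero hp hpM hA hv ?_
    have h4 := Nat.mul_le_mul hp.two_le hp.two_le
    omega

/-- The expansion of `1/u` at either cusp. -/
theorem emb_curve_u_inv (i : Fin 2) :
    BAD.Modular.emb M hp hpM i (BAD.Modular.curve hp hpM hA).u⁻¹ =
      jInvSeries Qb * qExpand Qb p (jInvSeries Qb) := by
  have hj : (((MF.Coeff.jElem Qb M)⁻¹ : modularFunctionFieldBar M) : LaurentSeries Qb) =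
      jInvSeries Qb := CuspSep.coe_jElem_inv
  rw [CuspSep.curve_u_inv hp hpM hA, map_mul]
  fin_cases i
  · simp only [Fin.zero_eta, BAD.Modular.emb_zero_alpha, BAD.Modular.emb_zero_beta, hj]
  · simp only [Fin.mk_one, BAD.Modular.emb_one_alpha, BAD.Modular.emb_one_beta, hj]
    exact mul_comm _ _

theorem order_emb_curve_u_inv (i : Fin 2) :
    (BAD.Modular.emb M hp hpM i (BAD.Modular.curve hp hpM hA).u⁻¹).order = (p : ℤ) + 1 := by
  have h0 : jInvSeries Qb ≠ 0 := right_ne_zero_of_mul_eq_one (jqModC_mul_inv Qb)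
  have h1 : (jInvSeries Qb).order = 1 := by
    rw [← inv_eq_of_mul_eq_one_right (jqModC_mul_inv Qb),
      series_order_inv (jqModC_ne_zero_of_nontrivial Qb), BAD.Modular.order_jqModC, neg_neg]
  rw [emb_curve_u_inv, HahnSeries.order_mul h0
    ((_root_.map_ne_zero (qExpand Qb p)).mpr h0), order_qExpand p h0, h1]
  ring

theorem emb_curve_u_inv_mem (i : Fin 2) :
    BAD.Modular.emb M hp hpM i (BAD.Modular.curve hp hpM hA).u⁻¹ ∈ psRing A := by
  refine mem_psRing_iff.mpr ⟨fun n => ?_, fun n hn => ?_⟩
  · rw [emb_curve_u_inv, ← coeffMap_jInvSeries A.subtype, ← coeffMap_qExpand, ← map_mul,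
      coeffMap_coeff]
    exact SetLike.coe_mem _
  · refine HahnSeries.coeff_eq_zero_of_lt_order ?_
    rw [order_emb_curve_u_inv]
    omega

/-- A function regular on the chart at infinity has an integral power series at each cusp, whose
reduction is its reduction on that branch. -/
theorem exists_series_of_coordRing {a : modularFunctionFieldBar (M * p)}
    (ha : a ∈ coordRing Qb (BAD.Modular.curve hp hpM hA).u⁻¹)
    (haO : a ∈ (BAD.Modular.curve hp hpM hA).O) (i : Fin 2) :
    ∃ s : PowerSeries A,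
      BAD.Modular.emb M hp hpM i a = coeffMap A.subtype (HahnSeries.ofPowerSeries ℤ A s) ∧
      (((BAD.Modular.curve hp hpM hA).red i a : modularFunctionFieldFullC (ResidueField A) M) :
        LaurentSeries (ResidueField A)) = coeffMap (residue A) (HahnSeries.ofPowerSeries ℤ A s) := by
  haveI := Fact.mk hp
  haveI := Galois.place_charP_residueField hA hp
  haveI := Galois.place_residueField_isAlgClosed A
  haveI : PerfectRing (ResidueField A) p := PerfectField.toPerfectRing p
  set T := BAD.Modular.twin M hp hpM hA with hT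
  have hπ : ∀ c : A, (c : Qb) ∈ A.nonunits ↔ residue A c = 0 := fun c => by
    rw [residue_eq_zero_iff, ← ValuationSubring.coe_mem_nonunits_iff]
  have hV := (BAD.Modular.mem_curve_V hp hpM hA).mp
    ((BAD.Modular.curve hp hpM hA).mem_of_mem_O haO i)
  have hg : BAD.Modular.emb M hp hpM i a ∈ BAD.Gauss.gaussRing (residue A) :=
    (BAD.Gauss.mem_valRing (T.scalable i)).mp hV
  obtain ⟨s, hs⟩ := expansion_mem_psRing (π := residue A) T.arch hπ _
    (emb_curve_u_inv_mem hp hpM hA i) ha hg
  refine ⟨s, hs.symm, ?_⟩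
  have hred := T.red_of_isFrac (i := i) (f := a) (by
    show BAD.Gauss.IsFrac (residue A) _ _ (BAD.Modular.emb M hp hpM i a)
    rw [← hs]
    exact BAD.Gauss.isFrac_coeffMap _)
  rw [map_one, div_one] at hred
  rw [BAD.Modular.curve_red_eq hp hpM hA (c := ⟨_, hred.mem⟩) hred]

/-- The pole of the coordinate at infinity of the special fibre. -/
theorem order_curve_ubar :
    ((((BAD.Modular.curve hp hpM hA).ubar : modularFunctionFieldFullC (ResidueField A) M)) :
      LaurentSeries (ResidueField A)).order = -((p : ℤ) + 1) := by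
  rw [BAD.Modular.coe_curve_ubar, HahnSeries.order_pow, BAD.Modular.order_jqModC, nsmul_eq_mul]
  push_cast
  ring

/-- The two cusps, with the leading coefficients of the two expansions. -/
theorem exists_cusps (R : RatField (BAD.Modular.curve hp hpM hA).toBadBase)
    (hgal : R.gal ≤ (A.inertiaSubgroupIn ℚ).map
      (arithmeticGalois (L := Qb) (modularFunctionFieldFull (M * p)))) :
    ∃ K : Cusps (BAD.Modular.curve hp hpM hA) R,
      ∀ i f, K.lead i f = (BAD.Modular.emb M hp hpM i f).leadingCoeff := by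
  haveI := MF.Coeff.isFunctionField_laurentBaseChange Qb (M * p)
  refine exists_cusps_of_expansions R (BAD.Modular.emb M hp hpM)
    (fun i => by rw [order_emb_curve_u_inv hp hpM hA]; omega)
    (fun i => (mem_psRing_iff.mp (emb_curve_u_inv_mem hp hpM hA i)).1 0)
    (by rw [order_curve_ubar hp hpM hA]; omega)
    (fun a ha haO i => ?_) (isSmoothPt_curve_cusp hp hpM hA) fun τ hτ i f => ?_
  · obtain ⟨s, hs⟩ := exists_series_of_coordRing hp hpM hA ha haO i
    exact ⟨_, hs⟩
  · obtain ⟨σ, -, rfl⟩ := Subgroup.mem_map.mp (hgal hτ)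
    rw [baseAut_arithmeticGalois, BAD.Modular.emb_arith, ← leadHom_apply, leadHom_coeffMap,
      leadHom_apply]
    rfl

end Fermat.Agent.LLp
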