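import Fermat.Agent.BAD.Modular.Curve
import Fermat.Agent.Carayol.CuspBound
import Fermat.Agent.LLp.Local.PointsDefs

/-!
# The separator of the two branches at a pole of `j`

`(α y)^p / β y` with `y = 1/j` is integral over `L[1/u]` and reduces to `1` and to
`ȳ^(p²-1)` on the two branches.
-/

set_option autoImplicit false
set_option linter.style.haveILetI false
set_option linter.unusedSectionVars false
set_option synthInstance.maxHeartbeats 200000

noncomputable section

open AlgebraicCurve ModularCurve IsLocalRing Polynomial Fermat.Agent.HK.Corr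
open Fermat.Agent.Igusa Fermat.Agent.RED Fermat.Agent.RED.Spec
open Fermat.Agent.BAD.Modular (Qb)

namespace Fermat.Agent.LLp.CuspSep

variable {p : ℕ} [NeZero p]

/-- `j(p τ) / j(τ)^p` is integral over `ℤ[1/j]`. -/
theorem isIntegralElem_jN_div (hp : p.Prime) {K : Type} [Field K] (ι : K →+* ℂ) :
    (eval₂RingHom (Int.castRingHom (LaurentSeries K)) (jInvSeries K)).IsIntegralElem
      (jqNModC K p * jInvSeries K ^ p) := by
  refine Carayol.isIntegralElem_div_j_pow (conjugable_jdFun (N := p) dvd_rfl) ι ?_ p fun c => ?_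
  · have h := Carayol.hasExp_genFun (M := p) ⟨p, hp.pos, dvd_rfl⟩
    rw [jqNModC, coeffMap_qExpand, ModularCurve.coeffMap_jqModC]
    exact h
  · refine ⟨_, _, by rw [expHom_conj_jdFun]; exact (tri c dvd_rfl).hasLead_jSer _, ?_⟩
    have hm := tri_mul c (dvd_refl p)
    rw [neg_le_neg_iff]
    norm_cast
    show (tri c dvd_rfl).a * (p / (tri c dvd_rfl).e) ≤ p * p
    exact Nat.mul_le_mul (Nat.le_of_dvd hp.pos (Dvd.intro _ hm)) (Nat.div_le_self _ _)

variable {M : ℕ} [NeZero M] (hp : p.Prime) (hpM : ¬ p ∣ M)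

/-- `(α y)^p / β y` with `y = 1/j`. -/
def sepFn : modularFunctionFieldBar (M * p) :=
  heckeAlphaBar Qb M p (MF.Coeff.jElem Qb M)⁻¹ ^ p *
    (heckeBetaBar Qb M p (MF.Coeff.jElem Qb M)⁻¹)⁻¹

theorem coe_jElem_inv :
    (((MF.Coeff.jElem Qb M)⁻¹ : modularFunctionFieldBar M) : LaurentSeries Qb) = jInvSeries Qb := by
  rw [IntermediateField.coe_inv, MF.Coeff.coe_jElem]
  exact inv_eq_of_mul_eq_one_right (jqModC_mul_inv Qb)

theorem emb_zero_sepFn :
    BAD.Modular.emb M hp hpM 0 (sepFn (M := M) (p := p)) =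
      jqNModC Qb p * jInvSeries Qb ^ p := by
  rw [sepFn, map_mul, map_pow, map_inv₀ (BAD.Modular.emb M hp hpM 0), BAD.Modular.emb_zero_alpha, BAD.Modular.emb_zero_beta,
    coe_jElem_inv, mul_comm, jqNModC]
  congr 1
  refine inv_eq_of_mul_eq_one_right ?_
  rw [← map_mul, mul_comm, jqModC_mul_inv, map_one]

include hp hpM in
theorem sepFn_mem_coordRing_alpha :
    sepFn (M := M) (p := p) ∈
      coordRing Qb (heckeAlphaBar Qb M p (MF.Coeff.jElem Qb M)⁻¹) := by
  obtain ⟨P, hP, hP0⟩ := isIntegralElem_jN_div hp BAD.Modular.toComplex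
  set e := BAD.Modular.emb M hp hpM 0
  set x := heckeAlphaBar Qb M p (MF.Coeff.jElem Qb M)⁻¹
  have hx : e x = jInvSeries Qb :=
    (BAD.Modular.emb_zero_alpha M hp hpM _).trans coe_jElem_inv
  refine ⟨P.map (mapRingHom (Int.castRingHom Qb)), hP.map _, e.injective ?_⟩
  rw [map_zero, eval₂_map]
  refine (Polynomial.hom_eval₂ P _ e.toRingHom _).trans ?_
  have hc : e.toRingHom.comp ((coordEval Qb x).comp (mapRingHom (Int.castRingHom Qb))) =
      eval₂RingHom (Int.castRingHom (LaurentSeries Qb)) (jInvSeries Qb) :=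
    Polynomial.ringHom_ext (fun c => by simp) (by simp [hx])
  rw [hc, show e.toRingHom (sepFn (M := M) (p := p)) = jqNModC Qb p * jInvSeries Qb ^ p from
    emb_zero_sepFn hp hpM]
  exact hP0

variable {A : ValuationSubring Qb} (hA : A.LiesOverPrime p)

theorem curve_u_inv : (BAD.Modular.curve hp hpM hA).u⁻¹ =
    heckeAlphaBar Qb M p (MF.Coeff.jElem Qb M)⁻¹ *
      heckeBetaBar Qb M p (MF.Coeff.jElem Qb M)⁻¹ := by
  rw [BAD.Modular.curve_u, mul_inv, map_inv₀, map_inv₀]

theorem sepFn_mem_coordRing :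
    sepFn (M := M) (p := p) ∈ coordRing Qb (BAD.Modular.curve hp hpM hA).u⁻¹ := by
  haveI := MF.Coeff.isFunctionField_laurentBaseChange Qb (M * p)
  have h := BAD.Modular.coordHyp_jInvW hp hpM hA
  have hn := h.noCancel
  rw [BAD.Modular.coe_jInvW, BAD.Modular.coe_jW] at hn
  rw [curve_u_inv hp hpM hA]
  refine BAD.Modular.mem_coordRing_mul_of_noCancel ?_ hn (sepFn_mem_coordRing_alpha hp hpM)
  exact (_root_.map_ne_zero _).mpr (inv_ne_zero fun h0 =>
    MF.Coeff.transcendental_jElem Qb M (h0 ▸ isAlgebraic_zero))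

/-- `1/j` on the special fibre. -/
def tbar : modularFunctionFieldFullC (ResidueField A) M :=
  (BAD.Modular.twin M hp hpM hA).redW (BAD.Modular.jInvW hp hpM hA)

theorem tbar_ne_zero : tbar hp hpM hA ≠ 0 := fun h => by
  haveI := MF.Coeff.isFunctionField_laurentBaseChange Qb (M * p)
  refine (BAD.Modular.coordHyp_jInvW hp hpM hA).transcendental ?_
  show IsAlgebraic (ResidueField A) (tbar hp hpM hA)
  rw [h]
  exact isAlgebraic_zero

theorem coe_tbar : ((tbar hp hpM hA : modularFunctionFieldFullC (ResidueField A) M) :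
    LaurentSeries (ResidueField A)) = (jqModC (ResidueField A))⁻¹ := by
  show ((((RED.x0Red hp hpM hA).red (RED.x0ParamInv hp hpM hA) :
    modularFunctionFieldFullC (ResidueField A) M)) : LaurentSeries (ResidueField A)) = _
  rw [RED.red_x0ParamInv, IntermediateField.coe_inv, RED.coe_jSpecial]

theorem ubar_inv : (BAD.Modular.curve hp hpM hA).ubar⁻¹ = tbar hp hpM hA ^ (p + 1) :=
  Subtype.ext (by
    rw [IntermediateField.coe_inv, BAD.Modular.coe_curve_ubar, SubmonoidClass.coe_pow, coe_tbar,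
      inv_pow])

/-- The reductions of the separator. -/
theorem red_sepFn :
    sepFn (M := M) (p := p) ∈ (BAD.Modular.curve hp hpM hA).O ∧
      (BAD.Modular.curve hp hpM hA).red 0 (sepFn (M := M) (p := p)) = 1 ∧
      (BAD.Modular.curve hp hpM hA).red 1 (sepFn (M := M) (p := p)) =
        tbar hp hpM hA ^ (p * p - 1) := by
  haveI := MF.Coeff.isFunctionField_laurentBaseChange Qb (M * p)
  set T := BAD.Modular.twin M hp hpM hA with hT
  set y := BAD.Modular.jInvW hp hpM hA
  have hfrob := (BAD.Modular.coordHyp_jInvW hp hpM hA).frob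
  set s := T.serW y with hs
  have hy : (y : modularFunctionFieldBar M) = (MF.Coeff.jElem Qb M)⁻¹ := by
    rw [BAD.Modular.coe_jInvW, BAD.Modular.coe_jW]
  have hs0 : s ≠ 0 := fun h0 => tbar_ne_zero hp hpM hA (Subtype.ext h0)
  have h0a := T.red0_a y
  have h0b := T.red0_b y
  have h1a := T.red1_a y
  have h1b := T.red1_b y
  rw [← hs, hfrob, hy] at h0b h1a
  rw [← hs, hy] at h0a h1b
  have h0 : T.Red 0 (sepFn (M := M) (p := p))
      (((1 : modularFunctionFieldFullC (ResidueField A) M)) :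
        LaurentSeries (ResidueField A)) := by
    have h := (h0a.pow p).mul (h0b.inv (pow_ne_zero _ hs0))
    rwa [mul_inv_cancel₀ (pow_ne_zero _ hs0)] at h
  have h1 : T.Red 1 (sepFn (M := M) (p := p))
      (((tbar hp hpM hA ^ (p * p - 1) : modularFunctionFieldFullC (ResidueField A) M)) :
        LaurentSeries (ResidueField A)) := by
    have h := (h1a.pow p).mul (h1b.inv hs0)
    rw [← pow_mul, ← pow_sub_one_mul (Nat.mul_ne_zero hp.ne_zero hp.ne_zero),
      mul_inv_cancel_right₀ hs0] at h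
    rw [SubmonoidClass.coe_pow]
    exact h
  refine ⟨(BAD.Modular.curve hp hpM hA).mem_O.mpr (Fin.forall_fin_two.mpr ⟨h0.1, h1.1⟩),
    BAD.Modular.curve_red_eq hp hpM hA h0, BAD.Modular.curve_red_eq hp hpM hA h1⟩

theorem pv_tbar_pow_eq_zero {x : Place (ResidueField A) (modularFunctionFieldFullC (ResidueField A) M)}
    {hd : x.deg = 1} (hx : 0 < x.ord (BAD.Modular.curve hp hpM hA).ubar⁻¹) {n : ℕ} (hn : 0 < n) :
    BAD.pv x hd (tbar hp hpM hA ^ n) = 0 := by
  rw [ubar_inv hp hpM hA, FF.ord_pow] at hx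
  have ht : 0 < x.ord (tbar hp hpM hA) := by
    by_contra hle
    nlinarith [not_lt.mp hle]
  rw [BAD.pv_pow (mem_of_ord_nonneg x ht.le),
    (BAD.pv_eq_zero_iff (mem_of_ord_nonneg x ht.le)).mpr (Or.inr ht), zero_pow hn.ne']

end Fermat.Agent.LLp.CuspSep
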