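import Fermat.Agent.LLp.Local.Digit
import Fermat.Agent.LLp.Local.WildConsts
import Fermat.Agent.BAD.Modular.Curve

/-!
# The constants of the Kummer class of a unit and their wild extension
-/

set_option autoImplicit false

noncomputable section

open AlgebraicCurve ModularCurve IsLocalRing
open Fermat.Agent.Galois (Qbar GalQ)

namespace Fermat.Agent.LLp

open WildConsts

variable {p : ℕ} {A : ValuationSubring Qbar} {ζ η : Qbar}

/-- The constants fixed by `tameGrp`, with uniformiser `ζ - 1`. -/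
theorem exists_tameConsts [Fact p.Prime] (hA : A.LiesOverPrime p) (hζ : IsPrimitiveRoot ζ p) :
    ∃ Q : BAD.Ordinary.Consts A, Q.ϖ = ζ - 1 ∧
      ∀ c, c ∈ Q.K ↔ ∀ s ∈ tameGrp A ζ, s c = c :=
  ⟨tameConsts hA hζ, rfl, fun _ => mem_fixK⟩

/-- The constants fixed by `wildGrp`, with uniformiser `w`. -/
theorem exists_wildConsts [Fact p.Prime] (hA : A.LiesOverPrime p) (hζ : IsPrimitiveRoot ζ p)
    (hη1 : A.valuation η = 1) (hη : ∀ σ ∈ A.inertiaSubgroupIn ℚ, σ (η ^ p) = η ^ p) {w : Qbar}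
    (hw : A.valuation w ^ (p * (p - 1)) = A.valuation (p : Qbar))
    (hwfix : ∀ s ∈ wildGrp A ζ η, s w = w) :
    ∃ Q : BAD.Ordinary.Consts A, Q.ϖ = w ∧ ∀ c, c ∈ Q.K ↔ ∀ s ∈ wildGrp A ζ η, s c = c := by
  have hη0 : η ≠ 0 := fun h => by rw [h, map_zero] at hη1; exact zero_ne_one hη1
  exact ⟨wildConsts hA hζ hη0 hη hw (mem_fixK.mpr hwfix), rfl, fun _ => mem_fixK⟩

/-- The wild extension of rational fields. -/
theorem exists_wildExt {M : ℕ} [NeZero M] [NeZero p] (hp : p.Prime) (hp2 : p ≠ 2)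
    (hpM : ¬ p ∣ M) (hA : A.LiesOverPrime p) (hζ : IsPrimitiveRoot ζ p)
    (hη1 : A.valuation η = 1) (hη : ∀ σ ∈ A.inertiaSubgroupIn ℚ, σ (η ^ p) = η ^ p)
    {σ : GalQ} {w γ : Qbar} (hσ : σ ∈ tameGrp A ζ)
    (hw : A.valuation w ^ (p * (p - 1)) = A.valuation (p : Qbar)) (hγ : A.valuation γ = 1)
    (hσw : σ w = w * (1 + w * γ)) (hwfix : ∀ s ∈ wildGrp A ζ η, s w = w)
    (R₁ R : RatField (BAD.Modular.curve hp hpM hA).toBadBase)
    (hR₁ : R₁.gal = (tameGrp A ζ).map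
      (arithmeticGalois (L := Qbar) (modularFunctionFieldFull (M * p))))
    (hR : R.gal = (wildGrp A ζ η).map
      (arithmeticGalois (L := Qbar) (modularFunctionFieldFull (M * p))))
    (hϖ₁ : R₁.ϖ = ζ - 1) (hϖ : R.ϖ = w) (Q : BAD.Ordinary.Consts A)
    (hQ : ∀ c, c ∈ Q.K ↔ ∀ s ∈ wildGrp A ζ η, s c = c)
    (hser : ∀ x ∈ R.FK, ∀ i, BAD.Modular.emb M hp hpM i x ∈ Q.serField) :
    ∃ W : WildExt R₁ R p,
      W.σ = arithmeticGalois (L := Qbar) (modularFunctionFieldFull (M * p)) σ := by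
  have : Fact p.Prime := ⟨hp⟩
  have hη0 : η ≠ 0 := fun h => by rw [h, map_zero] at hη1; exact zero_ne_one hη1
  have hγA : γ ∈ A := (A.valuation_le_one_iff γ).mp hγ.le
  have hu : IsUnit (⟨γ, hγA⟩ : A) := (A.valuation_eq_one_iff _).mpr hγ
  let B : Break p A ζ η :=
    ⟨σ, hσ, w, mem_fixK.mpr hwfix, hw, ⟨γ, hγA⟩, (hu.map (residue A)).ne_zero, hσw⟩
  have hQK : Q.K = fixK (wildGrp A ζ η) := Subfield.ext fun c => (hQ c).trans mem_fixK.symm
  have hserEq : Q.serField = (B.consts hA hζ hη0 hη).serField := by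
    refine congrArg Subfield.closure (Set.ext fun y => ?_)
    show (∀ n, y.coeff n ∈ A ∧ y.coeff n ∈ Q.K) ↔
      ∀ n, y.coeff n ∈ A ∧ y.coeff n ∈ fixK (wildGrp A ζ η)
    rw [hQK]
  refine ⟨{
    le := hR₁ ▸ hR ▸ Subgroup.map_mono wildGrp_le
    σ := arithmeticGalois (L := Qbar) (modularFunctionFieldFull (M * p)) σ
    σ_mem := hR₁ ▸ Subgroup.mem_map_of_mem _ hσ
    maps := fun x hx => (R.mem_iff _).mpr fun τ hτ => ?_
    val_ϖ := by rw [hϖ₁, hϖ]; exact B.valuation_zeta_sub_one_eq hζ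
    small := fun i x hx hxV => ?_
    γ := B.γ
    γ_ne := B.γ_ne
    σ_ϖ := by rw [hϖ]; exact hσw
    zeta_close := fun c _ hc => by rw [hϖ]; exact B.zeta_close hp2 hA hζ hc }, rfl⟩
  · rw [hR] at hτ
    obtain ⟨s, hs, rfl⟩ := Subgroup.mem_map.mp hτ
    have h := (R.mem_iff x).mp hx _
      (by rw [hR]; exact Subgroup.mem_map_of_mem _ (conj_mem hζ hη0 hη hσ hs))
    rw [← mul_smul, ← map_mul]
    conv_rhs => rw [← h, ← mul_smul, ← map_mul]
    rw [show σ * (σ⁻¹ * s * σ) = s * σ by group]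
  · have h := B.small_series hA hζ hη0 hη (hserEq ▸ hser x hx i)
      ((BAD.Gauss.mem_valRing ((BAD.Modular.twin M hp hpM hA).scalable i)).mp hxV)
    rw [hϖ]
    refine (BAD.Gauss.mem_valRing ((BAD.Modular.twin M hp hpM hA).scalable i)).mpr ?_
    show BAD.Modular.emb M hp hpM i _ ∈ _
    rw [BAD.Gauss.smul_eq_C_mul, map_sub, BAD.Modular.emb_arith]
    exact h

end Fermat.Agent.LLp
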