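import Fermat.Agent.LL.Mazur.Instance
import Fermat.Agent.LL.Mazur.ThicknessUnit
import Fermat.Agent.LLp.Local.Residual
import Fermat.Agent.LLp.Inst.Wild
import Fermat.Agent.LLp.Inst.Cusps

/-!
# The thickness function of `X₀(M p)` over the constants fixed by the inertia fixing `ζ`
-/

set_option autoImplicit false
set_option synthInstance.maxHeartbeats 200000

noncomputable section

open AlgebraicCurve ModularCurve IsLocalRing Fermat.Agent.RED
open Fermat.Agent.Galois (Qbar GalQ)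

namespace Fermat.Agent.LLp

variable {M p : ℕ} [NeZero M] [NeZero p] (hp : p.Prime) (hpM : ¬ p ∣ M)
  {A : ValuationSubring Qbar} (hA : A.LiesOverPrime p)

/-- `j` is integral over the ring of the coordinate. -/
theorem jFn_mem_coordRing :
    LL.Mazur.jFn M p ∈ coordRing Qbar (BAD.Modular.curve hp hpM hA).u := by
  haveI := MF.Coeff.isFunctionField_laurentBaseChange Qbar (M * p)
  have hj : LL.Mazur.jFn M p = heckeAlphaBar Qbar M p (MF.Coeff.jElem Qbar M) :=
    Subtype.ext (by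
      rw [coe_heckeAlphaBar, MF.Coeff.coe_jElem]
      show qExpand Qbar 1 (jqModC Qbar) = _
      rw [qExpand_one_apply])
  have h := BAD.Modular.coordHyp_jW hp hpM hA
  have h1 := h.noCancel
  have h2 := h.transcendentalE
  rw [hj, BAD.Modular.curve_u]
  rw [BAD.Modular.coe_jW hp hpM hA] at h2
  refine BAD.Modular.mem_coordRing_mul_of_noCancel
    (fun h0 => h2 (by
      rw [(map_eq_zero (heckeBetaBar Qbar M p)).mp h0]
      exact isAlgebraic_zero))
    ?_ (self_mem_coordRing _ _)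
  show BAD.Modular.NoCancel Qbar (heckeAlphaBar Qbar M p _) (heckeBetaBar Qbar M p _)
  rw [← BAD.Modular.coe_jW hp hpM hA]
  exact h1

/-- The value of `p` in the constants fixed by the inertia fixing `ζ`. -/
theorem valuation_p_pow [Fact p.Prime] {ζ : Qbar} (hζ : IsPrimitiveRoot ζ p) (t : ℕ) :
    A.valuation ((p : Qbar) ^ t) = A.valuation (ζ - 1) ^ (t * (p - 1)) := by
  rw [mul_comm, pow_mul, S13.val_zeta_sub_one_pow A.valuation Fact.out hζ, map_pow]

include hp in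
/-- The thickness function: `t = 12` for `p ≥ 5`, `t = 8` for `p = 3`. -/
theorem exists_thickness [Fact p.Prime] (hp2 : p ≠ 2)
    (hq3 : p = 3 → ∃ q : ℕ, q.Prime ∧ q ∣ M ∧ q % 3 = 2) {ζ : Qbar} (hζ : IsPrimitiveRoot ζ p)
    (Q : BAD.Ordinary.Consts A) (hϖ : Q.ϖ = ζ - 1)
    (hQ : ∀ c, c ∈ Q.K ↔ ∀ s ∈ tameGrp A ζ, s c = c) :
    Nonempty (Thickness (BAD.Modular.curve hp hpM hA)
      (LL.Mazur.ratField hp hpM hA (H := tameGrp A ζ) inf_le_left Q hQ) p) := by
  have h2 := hp.two_le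
  obtain ⟨t, ht, hpt⟩ : ∃ t, (t = 12 ∨ (t = 8 ∧ ∃ q : ℕ, q.Prime ∧ q ∣ M ∧ q % 3 = 2)) ∧
      ¬ p ∣ t * (p - 1) := by
    have hpred : ¬ p ∣ p - 1 := fun h => by have := Nat.le_of_dvd (by omega) h; omega
    by_cases h3 : p = 3
    · exact ⟨8, Or.inr ⟨rfl, hq3 h3⟩, fun h => by subst h3; norm_num at h⟩
    · refine ⟨12, Or.inl rfl, fun h => (hp.dvd_mul.mp h).elim (fun h12 => ?_) hpred⟩
      have := Nat.le_of_dvd (by norm_num) h12
      interval_cases p <;> first | omega | norm_num at hp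
  obtain ⟨Z, hZ0, hZfix, hZord, ⟨φ₀, hφ₀, h₀⟩, φ₁, hφ₁, h₁⟩ :=
    LL.Mazur.exists_thicknessUnit hp hpM A hA t ht
  set D := BAD.Modular.curve hp hpM hA with hD
  have key : ∀ {i : Fin 2} {f : modularFunctionFieldBar (M * p)} {φ : LaurentSeries (ResidueField A)},
      φ ≠ 0 → LL.Mazur.GRed (residue A) (BAD.Modular.emb M hp hpM i f) φ →
      f ∈ D.V i ∧ D.red i f ≠ 0 := by
    intro i f φ hφ h
    have hf := (LL.Mazur.mem_V_iff hp hpM hA).mpr h.mem
    refine ⟨hf, fun h0 => hφ ?_⟩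
    have h' := LL.Mazur.gRed_red hp hpM hA hf
    rw [h0, ZeroMemClass.coe_zero] at h'
    exact h.unique h'
  obtain ⟨hV₀, hr₀⟩ := key (i := 0) hφ₀ h₀
  obtain ⟨hV₁, hr₁⟩ := key (i := 1) hφ₁ (f := ((p : Qbar) ^ t)⁻¹ • Z) (by
    rw [LL.Mazur.emb_one_eq, Algebra.smul_def, map_mul, AlgEquiv.commutes, ← Algebra.smul_def]
    exact h₁)
  set R := LL.Mazur.ratField hp hpM hA (H := tameGrp A ζ) inf_le_left Q hQ with hR
  have hRϖ : R.ϖ = ζ - 1 := hϖ
  set M' := t * (p - 1) with hM'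
  have hp0 : ((p : Qbar) ^ t) ≠ 0 := pow_ne_zero _ (Nat.cast_ne_zero.mpr hp.ne_zero)
  have hu : A.valuation ((p : Qbar) ^ t / R.ϖ ^ M') = 1 := by
    rw [map_div₀, valuation_p_pow hζ, map_pow, hRϖ, div_self]
    exact pow_ne_zero _ ((map_ne_zero _).mpr (sub_ne_zero.mpr (hζ.ne_one hp.one_lt)))
  have hmem : (p : Qbar) ^ t / R.ϖ ^ M' ∈ A := (A.valuation_le_one_iff _).mp hu.le
  have hres : residue A ⟨_, hmem⟩ ≠ 0 :=
    ((A.valuation_eq_one_iff (⟨_, hmem⟩ : A)).mpr hu).map (residue A) |>.ne_zero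
  have hsc : (R.ϖ ^ (M' : ℤ))⁻¹ • Z =
      ((⟨_, hmem⟩ : A) : Qbar) • (((p : Qbar) ^ t)⁻¹ • Z) := by
    rw [smul_smul, zpow_natCast]
    congr 1
    show _ = (p : Qbar) ^ t / R.ϖ ^ M' * ((p : Qbar) ^ t)⁻¹
    exact (eq_div_iff (pow_ne_zero _ R.ϖ_ne)).mpr (inv_mul_cancel₀ (pow_ne_zero _ R.ϖ_ne)) |>.trans
      (by field_simp)
  have hord : R.HasOrd 1 Z M' := by
    refine ⟨hsc ▸ D.smul_mem hV₁ _, ?_⟩
    rw [hsc, D.red_smul hV₁]
    exact smul_ne_zero hres hr₁
  have hpn : (p : Qbar) ^ t ∈ A.nonunits := by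
    rw [A.mem_nonunits_iff, map_pow]
    refine pow_lt_one₀ zero_le (A.mem_nonunits_iff.mp hA) ?_
    rcases ht with rfl | ⟨rfl, -⟩ <;> omega
  have hZeq : Z = ((⟨_, A.nonunits_subset hpn⟩ : A) : Qbar) • (((p : Qbar) ^ t)⁻¹ • Z) := by
    show Z = (p : Qbar) ^ t • _
    rw [smul_inv_smul₀ hp0]
  have hZ1 : Z ∈ D.V 1 := hZeq ▸ D.smul_mem hV₁ _
  have hfree : ∀ {u : modularFunctionFieldBar (M * p)}
      {ubar : modularFunctionFieldFullC (ResidueField A) M} {d : ℕ}
      (h : BAD.Chart D.toBadBase u ubar d)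
      (x : Place (ResidueField A) (modularFunctionFieldFullC (ResidueField A) M)),
      (∀ P : Place Qbar (modularFunctionFieldBar (M * p)),
        ChartSpec h P ((0 : Fin 2), x) → D.u ∈ P.toValuationSubring) →
      IsFreeAt h ((0 : Fin 2), x) Z := fun h x hx =>
    ⟨hZ0, fun P hP => hZord P (mem_place_of_mem_coordRing _ _ P (hx P hP)
      (jFn_mem_coordRing hp hpM hA))⟩
  haveI := MF.Coeff.isFunctionField_laurentBaseChange Qbar (M * p)
  haveI := Galois.place_residueField_isAlgClosed A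
  haveI : FF.IsFunctionField (ResidueField A) (modularFunctionFieldFullC (ResidueField A) M) :=
    RED.isFunctionField_special (k := ResidueField A) (N := M)
      (RED.natCast_residue_ne_zero hp hpM hA)
  refine ⟨{ Z := Z, M := M', mem := ?_, mem_O := ?_, red₀ := hr₀, red₁ := ?_, hasOrd := hord,
            not_dvd := hpt, free_fin := ?_, free_inf := ?_ }⟩
  · exact (LL.Mazur.mem_ratField_FK hp hpM hA inf_le_left Q hQ).mpr fun σ _ => hZfix σ
  · exact D.mem_O.mpr (Fin.forall_fin_two.mpr ⟨hV₀, hZ1⟩)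
  · rw [hZeq, D.red_smul hV₁, D.residue_eq_zero_of_nonunit _ hpn, zero_smul]
  · exact fun x y _ => hfree D.chartFin x fun P hP => hP.1.1
  · refine fun x y hxy => hfree D.chartInf x fun P hP => ?_
    by_contra huP
    have hx : ¬ x.ord D.ubar < 0 := fun hneg => by
      have h := (isSmoothPt_curve_cusp hp hpM hA ((0 : Fin 2), x) hneg).2
        ((1 : Fin 2), y) hxy.2.1 hxy.2.2
      exact one_ne_zero (congrArg Prod.fst h : (1 : Fin 2) = 0)
    have hu0 : D.u ≠ 0 := fun h0 => huP (h0 ▸ zero_mem _)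
    have hpos : 0 < P.ord D.u⁻¹ := by
      rw [P.ord_inv]
      by_contra hle
      exact huP (mem_of_ord_nonneg P (by omega))
    have hdeg := (coordData_chart D.chartInf).deg_one P
    have hv : pval P D.u⁻¹ = ((0 : A) : Qbar) := by
      rw [(pval_eq_zero_iff hdeg hP.1.1).mpr (Or.inr hpos), ZeroMemClass.coe_zero]
    have hev := hP.2.2 _ (self_mem_coordRing _ _) D.chartInf.u_mem 0 hv
    rw [map_zero, BAD.Chart.ev, BAD.TwoBranch.red2_apply, D.chartInf.red_u] at hev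
    rcases (BAD.pv_eq_zero_iff hxy.1).mp hev with h0 | h0
    · exact D.chartInf.ubar_ne_zero h0
    · rw [x.ord_inv] at h0
      exact hx (show x.ord (BAD.Modular.curve hp hpM hA).ubar < 0 by omega)

end Fermat.Agent.LLp
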